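import Fermat.Agent.Carayol.Assembly.Main
import Fermat.Agent.Carayol.Model.OddDefs
import Fermat.Agent.Carayol.Two.Coord
import Fermat.Agent.Carayol.OddInf.Coord
import Fermat.Agent.Carayol.Const.Main
import Fermat.Agent.Carayol.Vert.Main

/-!
# Vanishing of fixed classes at every prime

The wiring of the odd primes (auxiliary level two, coordinate `λ`) and of the prime two (auxiliary
level three, coordinate `μ`).
-/

set_option autoImplicit false
set_option linter.unusedSectionVars false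
set_option linter.style.haveILetI false

noncomputable section

namespace FA.Carayol

open CongruenceSubgroup ModularCurve FA.Level FA.JTorsion FA.Mazur.Wp
open scoped MatrixGroups

local notation "Qb" => AlgebraicClosure ℚ

/-- The points at an odd prime, in all levels. -/
def OddPtsAll : Prop :=
  ∀ [Algebra Qb ℂ] (A : ValuationSubring Qb) (q N g : ℕ) [NeZero N] (hN : N = 4 * g)
    (hζ : ∀ b : ℤ, eta N b ∈ constK A q) (ϖ : baseO A (constL A q).toSubfield),
    OddPtsHolds A q hN hζ ϖ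

/-- The points at the prime two, in all levels. -/
def TwoPtsAll : Prop :=
  ∀ [Algebra Qb ℂ] (A : ValuationSubring Qb) (N g : ℕ) [NeZero N] (hN : N = 2 * (3 * g))
    (hζ : ∀ b : ℤ, eta N b ∈ constK A 2) (ϖ : baseO A (constL A 2).toSubfield),
    A.LiesOverPrime 2 → ¬ 2 ∣ 3 * g → ConstHyp A (constL A 2).toSubfield ϖ →
      A.valuation ((ϖ : Qb)) = A.valuation (2 : Qb) →
        PtsHolds ϖ (muF hζ hN) (3 * g)

/-- An odd prime. -/
theorem fixedVanish_odd (hodd : OddPtsAll) {q M' : ℕ} [Fact q.Prime] [NeZero M'] (hq2 : q ≠ 2) :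
    FixedVanish q M' := by
  intro hqM _ _ A hA
  have hq : q.Prime := Fact.out
  have hM0 := NeZero.ne M'
  haveI : NeZero q := ⟨hq.ne_zero⟩
  haveI : NeZero (4 * M') := ⟨by omega⟩
  haveI : NeZero (q * (4 * M')) := ⟨mul_ne_zero hq.ne_zero (NeZero.ne _)⟩
  have hq4 : ¬ q ∣ 4 * M' := fun h => by
    rcases hq.dvd_mul.1 h with h4 | h4
    · exact hq2 ((Nat.prime_dvd_prime_iff_eq hq Nat.prime_two).1
        (hq.dvd_of_dvd_pow (show q ∣ 2 ^ 2 from h4)))
    · exact hqM h4
  have hc := constHolds q A hA (4 * M') (by omega) hq4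
  obtain ⟨ϖ, hϖv, hϖ⟩ := hc.const
  have hN : q * (4 * M') = 4 * (q * M') := by ring
  have hz := oddCoord (q := q) hN hc.roots hA hq2
  refine fixedVanish_of hq4 (dvd_mul_left M' 4) ⟨2 * (q * M'), by rw [hN]; ring⟩ ?_ 2
    (Dvd.dvd.mul_right ⟨2, rfl⟩ M') (fun _ => dvd_rfl) A hA _ hz (vertHolds A q _) ϖ hϖ
    (hodd A q _ _ hN hc.roots ϖ (4 * M') hq2 rfl hq4 ⟨M', rfl⟩ hA hϖ hϖv)
  rw [hN]
  exact Nat.le_mul_of_pos_right 4 (Nat.pos_of_ne_zero (mul_ne_zero hq.ne_zero hM0))

/-- The prime two. -/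
theorem fixedVanish_two (htwo : TwoPtsAll) {M' : ℕ} [Fact (Nat.Prime 2)] [NeZero M'] :
    FixedVanish 2 M' := by
  intro hqM _ _ A hA
  have hM0 := NeZero.ne M'
  haveI : NeZero (3 * M') := ⟨by omega⟩
  haveI : NeZero (2 * (3 * M')) := ⟨by omega⟩
  have hm : ¬ 2 ∣ 3 * M' := by omega
  have hc := constHolds 2 A hA (3 * M') (by omega) hm
  obtain ⟨ϖ, hϖv, hϖ⟩ := hc.const
  rw [show 2 - 1 = 1 from rfl, pow_one] at hϖv
  exact fixedVanish_of hm (dvd_mul_left M' 3) (dvd_mul_right 2 _) (by omega) 3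
    (dvd_mul_right 3 M') (fun h => absurd rfl h) A hA _ (twoCoord hc.roots hA rfl hm hϖ)
    (vertHolds A 2 _) ϖ hϖ (htwo A _ M' rfl hc.roots ϖ hA hm hϖ hϖv)

/-- **Vanishing of fixed classes**, given the points in all levels. -/
theorem fixedVanish_all_of (hodd : OddPtsAll) (htwo : TwoPtsAll) (q M' : ℕ) [Fact q.Prime]
    [NeZero M'] : FixedVanish q M' := by
  rcases eq_or_ne q 2 with rfl | hq2
  · exact fixedVanish_two htwo
  · exact fixedVanish_odd hodd hq2

end FA.Carayol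

end
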