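import Fermat.Agent.Carayol.Two.Main
import Fermat.Agent.Carayol.Final.Main

/-!
# The points at the prime two, in all levels
-/

set_option autoImplicit false

noncomputable section

namespace FA.Carayol

/-- **The points at the prime two.** -/
theorem twoPtsAll : TwoPtsAll := fun _ _ _ _ hN hζ _ hA hg hC hϖ =>
  twoPtsHolds hζ hA hN hg hC hϖ

end FA.Carayol

end
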